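import Mathlib

/-!
# Row S59, cell TW, leaf WEIERSTRASS: the abstract core (helper206)

`A = 𝒪⟦X₁..X_r⟧`, `𝒪` a Noetherian local ring which is precomplete for its maximal ideal, `p` a
prime number lying in the maximal ideal, `d = p ^ n`, `J = ((1 + X_j) ^ d - 1 : j)`.  Then every
power series is congruent modulo `J` to an `𝒪`-combination of the monomials
`∏ (1 + X_i) ^ a_i`, `a_i < d`.

Steps:
* `sub_boxPart_mem`: `f - (box part of f) ∈ (X_j ^ d : j)` (coefficientwise, any ring, any `d`);
* `boxPart_univ_mem_span`: the box part is an `𝒪`-combination of the `∏ (1 + X_i) ^ a_i`;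
* `exists_step`: hence `f ≡ ∑ c_a m_a + p h` modulo `J` (`X ^ d ≡ (1 + X) ^ d - 1` modulo `p`);
* iterate, pass to the limit of the coefficients in `𝒪` and use Krull's intersection theorem in
  `A ⧸ J`.
-/

set_option autoImplicit false

namespace Fermat.Agent.S59.TW.H206

open MvPowerSeries

section Box

variable {O : Type*} [CommRing O] {r : ℕ}

/-- Keep the coefficients at the exponents `α` with `α j < d` for all `j ∈ S`. -/
noncomputable def boxPart (d : ℕ) (S : Finset (Fin r)) (f : MvPowerSeries (Fin r) O) :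
    MvPowerSeries (Fin r) O :=
  fun α => if ∀ j ∈ S, α j < d then coeff α f else 0

theorem coeff_boxPart (d : ℕ) (S : Finset (Fin r)) (f : MvPowerSeries (Fin r) O)
    (α : Fin r →₀ ℕ) :
    coeff α (boxPart d S f) = if ∀ j ∈ S, α j < d then coeff α f else 0 := rfl

/-- `f` minus its box part lies in the ideal `(X_j ^ d : j)`. -/
theorem sub_boxPart_mem (d : ℕ) (S : Finset (Fin r)) (f : MvPowerSeries (Fin r) O) :
    f - boxPart d S f ∈
      Ideal.span (Set.range fun j : Fin r => (X j : MvPowerSeries (Fin r) O) ^ d) := by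
  classical
  induction S using Finset.induction_on with
  | empty =>
    have h : boxPart d ∅ f = f := by
      ext α
      rw [coeff_boxPart]
      simp
    rw [h, sub_self]
    exact Ideal.zero_mem _
  | insert j S _ ih =>
    have h2 : (X j : MvPowerSeries (Fin r) O) ^ d ∣
        boxPart d S f - boxPart d (insert j S) f := by
      rw [X_pow_dvd_iff]
      intro α hα
      rw [map_sub, coeff_boxPart, coeff_boxPart]
      have hiff : (∀ i ∈ insert j S, α i < d) ↔ (∀ i ∈ S, α i < d) := by
        rw [Finset.forall_mem_insert]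
        exact ⟨fun h => h.2, fun h => ⟨hα, h⟩⟩
      rw [if_congr hiff rfl rfl, sub_self]
    have h3 : boxPart d S f - boxPart d (insert j S) f ∈
        Ideal.span (Set.range fun j : Fin r => (X j : MvPowerSeries (Fin r) O) ^ d) :=
      Ideal.mem_of_dvd _ h2 (Ideal.subset_span ⟨j, rfl⟩)
    have h4 := Ideal.add_mem _ ih h3
    have e : f - boxPart d (insert j S) f =
        (f - boxPart d S f) + (boxPart d S f - boxPart d (insert j S) f) := by ring
    rw [e]
    exact h4

/-- The monomials `∏ (1 + X_i) ^ a_i`, `a_i < d`. -/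
noncomputable def mono (O : Type*) [CommRing O] {r : ℕ} (d : ℕ) (a : Fin r → Fin d) :
    MvPowerSeries (Fin r) O :=
  ∏ i, (1 + X i) ^ (a i : ℕ)

/-- `∏ X_i ^ a_i` is an `𝒪`-combination of the `∏ (1 + X_i) ^ b_i`. -/
theorem prod_X_pow_mem_span (d : ℕ) (a : Fin r → Fin d) :
    (∏ i, (X i : MvPowerSeries (Fin r) O) ^ (a i : ℕ)) ∈
      Submodule.span O (Set.range (mono O (r := r) d)) := by
  classical
  have hX : ∀ i : Fin r, (X i : MvPowerSeries (Fin r) O) ^ (a i : ℕ) =
      ∑ m ∈ Finset.range ((a i : ℕ) + 1),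
        (1 + X i : MvPowerSeries (Fin r) O) ^ m *
          algebraMap O (MvPowerSeries (Fin r) O)
            ((-1) ^ ((a i : ℕ) - m) * (((a i : ℕ).choose m : ℕ) : O)) := by
    intro i
    have h1 : (X i : MvPowerSeries (Fin r) O) = (1 + X i) + (-1) := by ring
    conv_lhs => rw [h1, add_pow]
    refine Finset.sum_congr rfl fun m _ => ?_
    rw [map_mul, map_pow, map_neg, map_one, map_natCast, mul_assoc]
  rw [Finset.prod_congr rfl fun i _ => hX i, Finset.prod_univ_sum]
  refine Submodule.sum_mem _ fun k hk => ?_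
  rw [Fintype.mem_piFinset] at hk
  have hk' : ∀ i, k i < d := fun i =>
    lt_of_le_of_lt (Nat.lt_succ_iff.mp (Finset.mem_range.mp (hk i))) (a i).2
  rw [Finset.prod_mul_distrib, ← map_prod, mul_comm, ← Algebra.smul_def]
  refine Submodule.smul_mem _ _ (Submodule.subset_span ⟨fun i => ⟨k i, hk' i⟩, ?_⟩)
  rfl

/-- The exponent attached to a point of the box. -/
noncomputable def boxExp {d : ℕ} (a : Fin r → Fin d) : Fin r →₀ ℕ :=
  Finsupp.equivFunOnFinite.symm fun i => (a i : ℕ)

theorem boxExp_apply {d : ℕ} (a : Fin r → Fin d) (i : Fin r) : boxExp a i = (a i : ℕ) := rfl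

theorem monomial_boxExp {d : ℕ} (a : Fin r → Fin d) :
    monomial (boxExp a) (1 : O) = ∏ i, (X i : MvPowerSeries (Fin r) O) ^ (a i : ℕ) := by
  rw [monomial_one_eq, Finsupp.prod_fintype _ _ fun i => pow_zero _]
  rfl

/-- The full box part is the finite sum of its monomials. -/
theorem boxPart_univ_eq (d : ℕ) (f : MvPowerSeries (Fin r) O) :
    boxPart d Finset.univ f =
      ∑ a : Fin r → Fin d, coeff (boxExp a) f • ∏ i, (X i : MvPowerSeries (Fin r) O) ^ (a i : ℕ) := by
  classical
  ext α
  rw [coeff_boxPart, map_sum]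
  have hterm : ∀ a : Fin r → Fin d,
      coeff α (coeff (boxExp a) f • ∏ i, (X i : MvPowerSeries (Fin r) O) ^ (a i : ℕ)) =
        if α = boxExp a then coeff (boxExp a) f else 0 := by
    intro a
    rw [← monomial_boxExp, map_smul, coeff_monomial, smul_eq_mul]
    split_ifs <;> simp
  rw [Finset.sum_congr rfl fun a _ => hterm a]
  by_cases h : ∀ j ∈ (Finset.univ : Finset (Fin r)), α j < d
  · rw [if_pos h]
    set a0 : Fin r → Fin d := fun i => ⟨α i, h i (Finset.mem_univ i)⟩ with ha0
    have hα : α = boxExp a0 := by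
      ext i
      rfl
    rw [Finset.sum_eq_single a0]
    · rw [if_pos hα, ← hα]
    · intro b _ hb
      rw [if_neg]
      intro hαb
      apply hb
      funext i
      apply Fin.ext
      have := congrArg (fun e : Fin r →₀ ℕ => e i) hαb
      simp only [boxExp_apply] at this
      exact this.symm
    · intro h0
      exact absurd (Finset.mem_univ a0) h0
  · rw [if_neg h]
    symm
    apply Finset.sum_eq_zero
    intro a _
    rw [if_neg]
    intro hαa
    apply h
    intro j _
    rw [hαa, boxExp_apply]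
    exact (a j).2

theorem boxPart_univ_mem_span (d : ℕ) (f : MvPowerSeries (Fin r) O) :
    boxPart d Finset.univ f ∈ Submodule.span O (Set.range (mono O (r := r) d)) := by
  rw [boxPart_univ_eq]
  exact Submodule.sum_mem _ fun a _ => Submodule.smul_mem _ _ (prod_X_pow_mem_span d a)

end Box

section Step

variable {O : Type*} [CommRing O] {r : ℕ}

/-- The ideal `J = ((1 + X_j) ^ d - 1 : j)`. -/
noncomputable def idealJ (O : Type*) [CommRing O] (r d : ℕ) : Ideal (MvPowerSeries (Fin r) O) :=
  Ideal.span (Set.range fun j : Fin r => ((1 + X j) ^ d - 1 : MvPowerSeries (Fin r) O))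

/-- `X_j ^ (p ^ n) ∈ J + p A`. -/
theorem X_pow_mem (p : ℕ) (hp : p.Prime) (n : ℕ) (j : Fin r) :
    ∃ h : MvPowerSeries (Fin r) O,
      (X j : MvPowerSeries (Fin r) O) ^ (p ^ n) - (p : MvPowerSeries (Fin r) O) * h ∈
        idealJ O r (p ^ n) := by
  obtain ⟨s, hs⟩ := (Commute.all (1 : MvPowerSeries (Fin r) O) (X j)).exists_add_pow_prime_pow_eq
    hp n
  refine ⟨-(X j * s), ?_⟩
  have e : (X j : MvPowerSeries (Fin r) O) ^ (p ^ n) - (p : MvPowerSeries (Fin r) O) * -(X j * s) =
      (1 + X j) ^ (p ^ n) - 1 := by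
    rw [hs]
    ring
  rw [e]
  exact Ideal.subset_span ⟨j, rfl⟩

/-- Everything in `(X_j ^ (p ^ n) : j)` lies in `J + p A`. -/
theorem exists_of_mem_span_X_pow (p : ℕ) (hp : p.Prime) (n : ℕ)
    (g : MvPowerSeries (Fin r) O)
    (hg : g ∈ Ideal.span
      (Set.range fun j : Fin r => (X j : MvPowerSeries (Fin r) O) ^ (p ^ n))) :
    ∃ h : MvPowerSeries (Fin r) O,
      g - (p : MvPowerSeries (Fin r) O) * h ∈ idealJ O r (p ^ n) := by
  induction hg using Submodule.span_induction with
  | mem x hx =>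
    obtain ⟨j, rfl⟩ := hx
    exact X_pow_mem p hp n j
  | zero => exact ⟨0, by simp⟩
  | add x y _ _ hx hy =>
    obtain ⟨h1, hh1⟩ := hx
    obtain ⟨h2, hh2⟩ := hy
    refine ⟨h1 + h2, ?_⟩
    have e : x + y - (p : MvPowerSeries (Fin r) O) * (h1 + h2) =
        (x - (p : MvPowerSeries (Fin r) O) * h1) + (y - (p : MvPowerSeries (Fin r) O) * h2) := by
      ring
    rw [e]
    exact Ideal.add_mem _ hh1 hh2
  | smul a x _ hx =>
    obtain ⟨h1, hh1⟩ := hx
    refine ⟨a * h1, ?_⟩
    have e : a • x - (p : MvPowerSeries (Fin r) O) * (a * h1) =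
        a * (x - (p : MvPowerSeries (Fin r) O) * h1) := by
      rw [smul_eq_mul]
      ring
    rw [e]
    exact Ideal.mul_mem_left _ _ hh1

/-- **One step**: `f ≡ ∑ c_a m_a + p h` modulo `J`. -/
theorem exists_step (p : ℕ) (hp : p.Prime) (n : ℕ) (f : MvPowerSeries (Fin r) O) :
    ∃ (c : (Fin r → Fin (p ^ n)) → O) (h : MvPowerSeries (Fin r) O),
      f - ∑ a, c a • mono O (p ^ n) a - (p : MvPowerSeries (Fin r) O) * h ∈
        idealJ O r (p ^ n) := by
  obtain ⟨c, hc⟩ := (Submodule.mem_span_range_iff_exists_fun O).mp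
    (boxPart_univ_mem_span (p ^ n) f)
  obtain ⟨h, hh⟩ := exists_of_mem_span_X_pow p hp n _ (sub_boxPart_mem (p ^ n) Finset.univ f)
  refine ⟨c, h, ?_⟩
  rw [hc]
  exact hh

end Step

section Limit

variable {O : Type*} [CommRing O] [IsLocalRing O] {r : ℕ}

open IsLocalRing

theorem C_mem_maximalIdeal {x : O} (hx : x ∈ maximalIdeal O) :
    (C x : MvPowerSeries (Fin r) O) ∈ maximalIdeal (MvPowerSeries (Fin r) O) := by
  rw [mem_maximalIdeal, mem_nonunits_iff, isUnit_iff_constantCoeff, constantCoeff_C]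
  exact (mem_maximalIdeal x).mp hx

theorem C_mem_maximalIdeal_pow (K : ℕ) {x : O} (hx : x ∈ maximalIdeal O ^ K) :
    (C x : MvPowerSeries (Fin r) O) ∈ maximalIdeal (MvPowerSeries (Fin r) O) ^ K := by
  have h1 : Ideal.map (C : O →+* MvPowerSeries (Fin r) O) (maximalIdeal O) ≤
      maximalIdeal (MvPowerSeries (Fin r) O) := by
    rw [Ideal.map_le_iff_le_comap]
    intro y hy
    exact C_mem_maximalIdeal hy
  have h2 : (C x : MvPowerSeries (Fin r) O) ∈
      Ideal.map (C : O →+* MvPowerSeries (Fin r) O) (maximalIdeal O ^ K) :=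
    Ideal.mem_map_of_mem _ hx
  rw [Ideal.map_pow] at h2
  exact Ideal.pow_right_mono h1 K h2

/-- Ideals of `A` are closed: Krull's intersection theorem in `A ⧸ J`. -/
theorem mem_of_forall_mem_sup_pow [IsNoetherianRing O] (J : Ideal (MvPowerSeries (Fin r) O))
    (e : MvPowerSeries (Fin r) O)
    (he : ∀ K : ℕ, e ∈ J ⊔ maximalIdeal (MvPowerSeries (Fin r) O) ^ K) : e ∈ J := by
  have hkrull := Ideal.iInf_pow_smul_eq_bot_of_isLocalRing
    (M := MvPowerSeries (Fin r) O ⧸ J) (maximalIdeal (MvPowerSeries (Fin r) O))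
    (Ideal.IsMaximal.ne_top inferInstance)
  have hmem : (Submodule.Quotient.mk e : MvPowerSeries (Fin r) O ⧸ J) ∈
      ⨅ i : ℕ, maximalIdeal (MvPowerSeries (Fin r) O) ^ i •
        (⊤ : Submodule (MvPowerSeries (Fin r) O) (MvPowerSeries (Fin r) O ⧸ J)) := by
    rw [Submodule.mem_iInf]
    intro K
    obtain ⟨a, ha, b, hb, hab⟩ := Submodule.mem_sup.mp (he K)
    have h1 : (Submodule.Quotient.mk e : MvPowerSeries (Fin r) O ⧸ J) =
        b • (Submodule.Quotient.mk 1 : MvPowerSeries (Fin r) O ⧸ J) := by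
      rw [← Submodule.Quotient.mk_smul, smul_eq_mul, mul_one, ← hab,
        Submodule.Quotient.mk_add, (Submodule.Quotient.mk_eq_zero J).mpr ha, zero_add]
    rw [h1]
    exact Submodule.smul_mem_smul hb Submodule.mem_top
  rw [hkrull, Submodule.mem_bot] at hmem
  exact (Submodule.Quotient.mk_eq_zero J).mp hmem

/-- **WEIERSTRASS, abstract form.** -/
theorem weierstrass_core [IsNoetherianRing O] [IsPrecomplete (maximalIdeal O) O] (p : ℕ) (hp : p.Prime)
    (hpO : (p : O) ∈ maximalIdeal O) (n r : ℕ) (f : MvPowerSeries (Fin r) O) :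
    ∃ c : (Fin r → Fin (p ^ n)) → O,
      f - ∑ a, c a • mono O (p ^ n) a ∈ idealJ O r (p ^ n) := by
  classical
  -- the recursion
  choose cf hf hstep using fun g : MvPowerSeries (Fin r) O => exists_step (O := O) p hp n g
  let hs : ℕ → MvPowerSeries (Fin r) O := fun k => Nat.rec f (fun _ g => hf g) k
  have hs0 : hs 0 = f := rfl
  have hsS : ∀ k, hs (k + 1) = hf (hs k) := fun _ => rfl
  let s : ℕ → (Fin r → Fin (p ^ n)) → O := fun K a =>
    ∑ k ∈ Finset.range K, (p : O) ^ k * cf (hs k) a
  have hmain : ∀ K : ℕ,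
      f - ∑ a, s K a • mono O (p ^ n) a - (p : MvPowerSeries (Fin r) O) ^ K * hs K ∈
        idealJ O r (p ^ n) := by
    intro K
    induction K with
    | zero =>
      have e : f - ∑ a, s 0 a • mono O (p ^ n) a -
          (p : MvPowerSeries (Fin r) O) ^ 0 * hs 0 = 0 := by
        simp [s, hs0]
      rw [e]
      exact Ideal.zero_mem _
    | succ K ih =>
      have h1 := hstep (hs K)
      have e : f - ∑ a, s (K + 1) a • mono O (p ^ n) a -
          (p : MvPowerSeries (Fin r) O) ^ (K + 1) * hs (K + 1) =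
          (f - ∑ a, s K a • mono O (p ^ n) a - (p : MvPowerSeries (Fin r) O) ^ K * hs K) +
          (p : MvPowerSeries (Fin r) O) ^ K *
            (hs K - ∑ a, cf (hs K) a • mono O (p ^ n) a -
              (p : MvPowerSeries (Fin r) O) * hf (hs K)) := by
        have e1 : ∑ a, s (K + 1) a • mono O (p ^ n) a =
            ∑ a, s K a • mono O (p ^ n) a +
              (p : MvPowerSeries (Fin r) O) ^ K * ∑ a, cf (hs K) a • mono O (p ^ n) a := by
          rw [Finset.mul_sum, ← Finset.sum_add_distrib]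
          refine Finset.sum_congr rfl fun a _ => ?_
          simp only [s, Finset.sum_range_succ, add_smul]
          congr 1
          rw [Algebra.smul_def, Algebra.smul_def, map_mul, map_pow, map_natCast, mul_assoc]
        rw [e1, hsS]
        ring
      rw [e]
      exact Ideal.add_mem _ ih (Ideal.mul_mem_left _ _ h1)
  -- the limit of the coefficients
  have hcauchy : ∀ a : Fin r → Fin (p ^ n), ∀ {m k : ℕ}, m ≤ k →
      s m a ≡ s k a [SMOD (maximalIdeal O ^ m • ⊤ : Submodule O O)] := by
    intro a m k hmk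
    rw [SModEq.sub_mem, smul_eq_mul, Ideal.mul_top]
    have e : s m a - s k a = -∑ i ∈ Finset.Ico m k, (p : O) ^ i * cf (hs i) a := by
      simp only [s]
      rw [Finset.sum_Ico_eq_sub _ hmk]
      ring
    rw [e]
    refine Ideal.neg_mem_iff _ |>.mpr (Ideal.sum_mem _ fun i hi => ?_)
    have him : m ≤ i := (Finset.mem_Ico.mp hi).1
    exact Ideal.mul_mem_right _ _ (Ideal.pow_le_pow_right him (Ideal.pow_mem_pow hpO i))
  choose c hc using fun a : Fin r → Fin (p ^ n) =>
    IsPrecomplete.prec (I := maximalIdeal O) (M := O) inferInstance (hcauchy a)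
  refine ⟨c, mem_of_forall_mem_sup_pow _ _ fun K => ?_⟩
  have e : f - ∑ a, c a • mono O (p ^ n) a =
      (f - ∑ a, s K a • mono O (p ^ n) a - (p : MvPowerSeries (Fin r) O) ^ K * hs K) +
      ((p : MvPowerSeries (Fin r) O) ^ K * hs K + ∑ a, (s K a - c a) • mono O (p ^ n) a) := by
    simp only [sub_smul, Finset.sum_sub_distrib]
    ring
  rw [e]
  refine Submodule.add_mem_sup (hmain K) (Ideal.add_mem _ ?_ (Ideal.sum_mem _ fun a _ => ?_))
  · refine Ideal.mul_mem_right _ _ (Ideal.pow_mem_pow ?_ K)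
    have := C_mem_maximalIdeal (r := r) hpO
    rwa [map_natCast] at this
  · have h1 : s K a - c a ∈ maximalIdeal O ^ K := by
      have := hc a K
      rw [SModEq.sub_mem, smul_eq_mul, Ideal.mul_top] at this
      exact this
    rw [Algebra.smul_def]
    exact Ideal.mul_mem_right _ _ (C_mem_maximalIdeal_pow K h1)

end Limit

end Fermat.Agent.S59.TW.H206
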