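import Fermat.Agent.S59.TW.H959.Iface
import Fermat.Agent.S59.TW.H206.WeierstrassCore

/-!
# Row S59, cell TW, leaf WEIERSTRASS (helper206)

`weierstrass : H959.WeierstrassStatement` (verbatim frozen interface of helper959,
`TW/H959/Iface.lean`), from the Mathlib-only core `weierstrass_core`.
-/

set_option autoImplicit false

namespace Fermat.Agent.S59.TW.H206

open IsLocalRing

/-- **LEAF WEIERSTRASS** of the cell TW. -/
theorem weierstrass : Fermat.Agent.S59.TW.H959.WeierstrassStatement := by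
  intro p hp 𝒪 _ _ _ _ hp𝒪 n r f
  obtain ⟨c, hc⟩ := weierstrass_core (O := 𝒪) p hp.out hp𝒪 n r f
  refine ⟨c, ?_⟩
  have e : ∑ a, algebraMap 𝒪 (MvPowerSeries (Fin r) 𝒪) (c a) *
      ∏ i, (1 + MvPowerSeries.X i) ^ (a i : ℕ) = ∑ a, c a • mono 𝒪 (p ^ n) a := by
    refine Finset.sum_congr rfl fun a _ => ?_
    rw [Algebra.smul_def]
    rfl
  rw [e]
  exact hc

end Fermat.Agent.S59.TW.H206
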